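import Mathlib.RingTheory.Int.Basic
import Mathlib.RingTheory.PrincipalIdealDomain
import Mathlib.RingTheory.Coprime.Lemmas
import Mathlib.Tactic.LinearCombination
import Mathlib.Tactic.Linarith
import Mathlib.Tactic.Ring
import Mathlib.Tactic.NormNum.Prime
import Mathlib.Data.ZMod.Basic

/-!
# Fermat's Last Theorem for exponent 7

Genocchi's identity reduces `x ^ 7 + y ^ 7 + z ^ 7 = 0` to the quartic
`w ^ 2 = e ^ 4 + 294 e ^ 2 m ^ 2 - 343 m ^ 4`, whose only primitive solutions have `m = 0`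
(an elementary infinite descent).
-/

set_option autoImplicit false

namespace Fermat.Agent.S10Seven

/-- The quartic attached to exponent seven. -/
def Quartic (e m w : ℤ) : Prop :=
  w ^ 2 = e ^ 4 + 294 * e ^ 2 * m ^ 2 - 343 * m ^ 4

lemma prime_seven : Prime (7 : ℤ) := Int.prime_iff_natAbs_prime.mpr (by norm_num)

lemma coprime_seven {a : ℤ} : IsCoprime (7 : ℤ) a ↔ ¬ (7 : ℤ) ∣ a :=
  prime_seven.coprime_iff_not_dvd

lemma coprime_two {a : ℤ} (ha : Odd a) : IsCoprime (2 : ℤ) a := by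
  obtain ⟨k, rfl⟩ := ha
  exact ⟨-k, 1, by ring⟩

lemma even_147 : ¬ Even (147 : ℤ) := by decide

lemma odd_of_sq_mul {a b : ℤ} (h : Odd (a ^ 2 * b ^ 2)) : Odd a ∧ Odd b :=
  ⟨(Int.odd_pow' two_ne_zero).mp (Int.odd_mul.mp h).1,
    (Int.odd_pow' two_ne_zero).mp (Int.odd_mul.mp h).2⟩

lemma nonneg_of_mul_of_add {u v : ℤ} (hp : 0 < u * v) (hs : 0 ≤ u + v) : 0 ≤ u ∧ 0 ≤ v := by
  rcases pos_and_pos_or_neg_and_neg_of_mul_pos hp with ⟨h1, h2⟩ | ⟨h1, h2⟩
  · exact ⟨h1.le, h2.le⟩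
  · omega

lemma coprime_parts {u v : ℤ} (h : IsCoprime (u + v) (u * v)) : IsCoprime u v := by
  have h1 : IsCoprime (u + v * 1) v := by simpa using h.of_mul_right_right
  exact h1.of_add_mul_left_left

lemma fourth_of_mul_eq_fourth {u v n : ℤ} (hu : 0 ≤ u) (hc : IsCoprime u v)
    (h : u * v = n ^ 4) : ∃ a : ℤ, u = a ^ 4 := by
  obtain ⟨a, ha⟩ := exists_associated_pow_of_mul_eq_pow' hc h
  have hn : (a ^ 4).natAbs = u.natAbs := Int.associated_iff_natAbs.mp ha
  have hpos : (0 : ℤ) ≤ a ^ 4 := by positivity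
  exact ⟨a, by omega⟩

lemma split_aux {u v n : ℤ} (hu : 0 ≤ u) (hv : 0 ≤ v) (hc : IsCoprime u v)
    (h : u * v = 343 * n ^ 4) (h7 : ¬ (7 : ℤ) ∣ v) :
    ∃ a b : ℤ, IsCoprime a b ∧ ¬ (7 : ℤ) ∣ b ∧ a ^ 2 * b ^ 2 = n ^ 2 ∧
      u = 343 * a ^ 4 ∧ v = b ^ 4 := by
  have h343 : IsCoprime (343 : ℤ) v := by
    have := (coprime_seven.mpr h7).pow_left (m := 3)
    norm_num at this
    exact this
  obtain ⟨u', rfl⟩ := h343.dvd_of_dvd_mul_right ⟨n ^ 4, h⟩
  have h' : u' * v = n ^ 4 := by linarith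
  have hu' : 0 ≤ u' := by omega
  have hc' : IsCoprime u' v := hc.of_mul_left_right
  obtain ⟨a, rfl⟩ := fourth_of_mul_eq_fourth hu' hc' h'
  obtain ⟨b, rfl⟩ := fourth_of_mul_eq_fourth hv hc'.symm (by rw [mul_comm]; exact h')
  have hab : IsCoprime a b := (IsCoprime.pow_iff (by norm_num) (by norm_num)).mp hc'
  refine ⟨a, b, hab, fun hb => h7 (dvd_pow hb (by norm_num)), ?_, rfl, rfl⟩
  have h2 : (a ^ 2 * b ^ 2) ^ 2 = (n ^ 2) ^ 2 := by linear_combination h'
  exact (pow_left_inj₀ (by positivity) (by positivity) (by norm_num : (2 : ℕ) ≠ 0)).mp h2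

lemma split {u v n : ℤ} (hu : 0 ≤ u) (hv : 0 ≤ v) (hc : IsCoprime u v)
    (h : u * v = 343 * n ^ 4) :
    ∃ a b : ℤ, IsCoprime a b ∧ ¬ (7 : ℤ) ∣ b ∧ a ^ 2 * b ^ 2 = n ^ 2 ∧
      ((u = 343 * a ^ 4 ∧ v = b ^ 4) ∨ (u = b ^ 4 ∧ v = 343 * a ^ 4)) := by
  by_cases h7 : (7 : ℤ) ∣ v
  · have h7u : ¬ (7 : ℤ) ∣ u := fun hd => prime_seven.not_isUnit (hc.isUnit_of_dvd' hd h7)
    obtain ⟨a, b, h1, h2, h3, h4, h5⟩ :=
      split_aux hv hu hc.symm (by rw [mul_comm]; exact h) h7u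
    exact ⟨a, b, h1, h2, h3, Or.inr ⟨h5, h4⟩⟩
  · obtain ⟨a, b, h1, h2, h3, h4, h5⟩ := split_aux hu hv hc h h7
    exact ⟨a, b, h1, h2, h3, Or.inl ⟨h4, h5⟩⟩

/-- The sign ambiguity after factoring is removed modulo seven, `-1` being a non-square. -/
lemma sign_seven {T a b : ℤ} (hb : ¬ (7 : ℤ) ∣ b)
    (h : T ^ 2 - 294 * (a ^ 2 * b ^ 2) = 343 * a ^ 4 - b ^ 4) : False := by
  have hb' : (b : ZMod 7) ≠ 0 := fun h0 => hb ((ZMod.intCast_zmod_eq_zero_iff_dvd b 7).mp h0)
  have key : ∀ t c : ZMod 7, t ^ 2 = - c ^ 4 → c = 0 := by decide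
  refine hb' (key (T : ZMod 7) _ ?_)
  have h1 := congrArg (fun k : ℤ => (k : ZMod 7)) h
  simp only [Int.cast_sub, Int.cast_mul, Int.cast_pow, Int.cast_ofNat] at h1
  have e1 : (294 : ZMod 7) = 0 := by decide
  have e2 : (343 : ZMod 7) = 0 := by decide
  rw [e1, e2] at h1
  linear_combination h1

lemma not_both_odd {e m w : ℤ} (he : Odd e) (hm : Odd m) (h : Quartic e m w) : False := by
  obtain ⟨i, rfl⟩ := he
  obtain ⟨j, rfl⟩ := hm
  obtain ⟨r, hr⟩ : ∃ r, i * (i + 1) = 2 * r := (Int.even_mul_succ_self i).two_dvd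
  obtain ⟨s, hs⟩ : ∃ s, j * (j + 1) = 2 * s := (Int.even_mul_succ_self j).two_dvd
  have hi : (2 * i + 1) ^ 2 = 8 * r + 1 := by linear_combination 4 * hr
  have hj : (2 * j + 1) ^ 2 = 8 * s + 1 := by linear_combination 4 * hs
  -- `A` is four times an odd number
  obtain ⟨A, hA, hAodd⟩ : ∃ A : ℤ, (2 * i + 1) ^ 2 + 147 * (2 * j + 1) ^ 2 = 4 * A ∧ Odd A :=
    ⟨2 * r + 294 * s + 37, by rw [hi, hj]; ring, ⟨r + 147 * s + 18, by ring⟩⟩
  have hw : w ^ 2 = 16 * (A ^ 2 - 4 * (343 * ((2 * j + 1) ^ 2) ^ 2)) := by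
    unfold Quartic at h
    linear_combination h + ((2 * i + 1) ^ 2 + 147 * (2 * j + 1) ^ 2 + 4 * A) * hA
  obtain ⟨w', rfl⟩ : (4 : ℤ) ∣ w := by
    have : (4 : ℤ) ^ 2 ∣ w ^ 2 := ⟨A ^ 2 - 4 * (343 * ((2 * j + 1) ^ 2) ^ 2), by rw [hw]; ring⟩
    exact (Int.pow_dvd_pow_iff (by norm_num)).mp this
  have hw' : w' ^ 2 = A ^ 2 - 4 * (343 * ((2 * j + 1) ^ 2) ^ 2) := by linarith
  obtain ⟨k, rfl⟩ := hAodd
  obtain ⟨l, hl⟩ : ∃ l, k * (k + 1) = 2 * l := (Int.even_mul_succ_self k).two_dvd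
  have hk : (2 * k + 1) ^ 2 = 8 * l + 1 := by linear_combination 4 * hl
  rw [hk, hj] at hw'
  rcases Int.even_or_odd w' with ⟨q, rfl⟩ | ⟨q, rfl⟩
  · ring_nf at hw'
    omega
  · obtain ⟨n, hn⟩ : ∃ n, q * (q + 1) = 2 * n := (Int.even_mul_succ_self q).two_dvd
    have hq : (2 * q + 1) ^ 2 = 8 * n + 1 := by linear_combination 4 * hn
    rw [hq] at hw'
    ring_nf at hw'
    omega

lemma natAbs_le_of_sq {a b n : ℤ} (h : a ^ 2 * b ^ 2 = n ^ 2) (hb : b ≠ 0) :
    a.natAbs ≤ n.natAbs := by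
  have hb0 : 0 < b ^ 2 := by positivity
  have hb2 : 1 ≤ b ^ 2 := by omega
  have h1 : |a| ≤ |n| := sq_le_sq.mp (by nlinarith [sq_nonneg a])
  rw [Int.abs_eq_natAbs, Int.abs_eq_natAbs] at h1
  exact_mod_cast h1

lemma descent_step {e m w : ℤ} (hm : m ≠ 0) (hc : IsCoprime e m) (h7 : ¬ (7 : ℤ) ∣ e)
    (h : Quartic e m w) :
    ∃ e' m' w' : ℤ, m' ≠ 0 ∧ IsCoprime e' m' ∧ ¬ (7 : ℤ) ∣ e' ∧ Quartic e' m' w' ∧
      m'.natAbs < m.natAbs := by
  unfold Quartic at h
  -- `A = e ^ 2 + 147 m ^ 2` and `w` are odd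
  have hA : Odd (e ^ 2 + 147 * m ^ 2) := by
    rcases Int.even_or_odd e with he | he <;> rcases Int.even_or_odd m with hm' | hm'
    · exact absurd (hc.isUnit_of_dvd' he.two_dvd hm'.two_dvd) (by norm_num [Int.isUnit_iff])
    · exact (he.pow_of_ne_zero two_ne_zero).add_odd ((Int.not_even_iff_odd.mp even_147).mul hm'.pow)
    · exact he.pow.add_even ((hm'.pow_of_ne_zero two_ne_zero).mul_left _)
    · exact (not_both_odd he hm' h).elim
  have hwodd : Odd w := by
    have h2 : Odd (w ^ 2) := by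
      have : w ^ 2 = (e ^ 2 + 147 * m ^ 2) ^ 2 - 2 * (10976 * m ^ 4) := by linear_combination h
      rw [this]
      exact hA.pow.sub_even (even_two_mul _)
    simpa [parity_simps] using h2
  obtain ⟨u, hu⟩ : ∃ u, e ^ 2 + 147 * m ^ 2 - w = 2 * u := (hA.sub_odd hwodd).two_dvd
  have huv : u * (u + w) = 343 * (2 * m) ^ 4 := by
    have : 4 * (u * (u + w)) = 4 * (343 * (2 * m) ^ 4) := by
      linear_combination (-(e ^ 2 + 147 * m ^ 2 + w + 2 * u)) * hu - h
    linarith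
  have hsum : u + (u + w) = e ^ 2 + 147 * m ^ 2 := by linarith
  have hpos : 0 < u * (u + w) := by rw [huv]; positivity
  obtain ⟨hu0, hv0⟩ := nonneg_of_mul_of_add hpos (by rw [hsum]; positivity)
  have hcop : IsCoprime u (u + w) := by
    apply coprime_parts
    rw [hsum, huv]
    have hA2 : IsCoprime (e ^ 2 + 147 * m ^ 2) 2 := (coprime_two hA).symm
    have hA7 : IsCoprime (e ^ 2 + 147 * m ^ 2) 7 := by
      have := ((coprime_seven.mpr h7).symm.pow_left (m := 2)).add_mul_left_left (21 * m ^ 2)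
      rwa [show e ^ 2 + 147 * m ^ 2 = e ^ 2 + 7 * (21 * m ^ 2) by ring]
    have hAm : IsCoprime (e ^ 2 + 147 * m ^ 2) m := by
      have := (hc.pow_left (m := 2)).add_mul_left_left (147 * m)
      rwa [show e ^ 2 + 147 * m ^ 2 = e ^ 2 + m * (147 * m) by ring]
    rw [show (343 : ℤ) * (2 * m) ^ 4 = 7 ^ 3 * (2 ^ 4 * m ^ 4) by ring]
    exact hA7.pow_right.mul_right (hA2.pow_right.mul_right hAm.pow_right)
  obtain ⟨s, t, hst, h7t, hstm, hst4⟩ := split hu0 hv0 hcop huv
  have hq : e ^ 2 + 147 * m ^ 2 = 343 * s ^ 4 + t ^ 4 := by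
    rcases hst4 with ⟨h1, h2⟩ | ⟨h1, h2⟩ <;> linarith
  rcases Int.even_or_odd t with ⟨T, rfl⟩ | htodd
  · -- `t = 2 T`: impossible
    exfalso
    have hs : Odd s := by
      by_contra hs
      rw [Int.not_odd_iff_even] at hs
      exact absurd (hst.isUnit_of_dvd' hs.two_dvd ⟨T, by ring⟩) (by norm_num [Int.isUnit_iff])
    have hmT : m ^ 2 = s ^ 2 * T ^ 2 := by linarith
    have he : e ^ 2 = 16 * T ^ 4 - 147 * s ^ 2 * T ^ 2 + 343 * s ^ 4 := by
      linear_combination hq - 147 * hmT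
    have hprod : (8 * |e| - (32 * T ^ 2 - 147 * s ^ 2)) * (8 * |e| + (32 * T ^ 2 - 147 * s ^ 2))
        = 343 * s ^ 4 := by
      linear_combination 64 * sq_abs e + 64 * he
    have hs0 : s ≠ 0 := by rintro rfl; simp at hs
    obtain ⟨hl, hr⟩ := nonneg_of_mul_of_add (by rw [hprod]; positivity)
      (show (0 : ℤ) ≤ (8 * |e| - (32 * T ^ 2 - 147 * s ^ 2))
        + (8 * |e| + (32 * T ^ 2 - 147 * s ^ 2)) by have := abs_nonneg e; omega)
    have hcB : IsCoprime (8 * |e| - (32 * T ^ 2 - 147 * s ^ 2))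
        (8 * |e| + (32 * T ^ 2 - 147 * s ^ 2)) := by
      have hT7 : ¬ (7 : ℤ) ∣ T := fun hd => h7t (dvd_add hd hd)
      have hTs : IsCoprime T s := (show IsCoprime s (2 * T) by rwa [two_mul]).of_mul_right_right.symm
      have hB7 : IsCoprime (32 * T ^ 2 - 147 * s ^ 2) 7 := by
        have h32 : IsCoprime (32 : ℤ) 7 := ⟨2, -9, by norm_num⟩
        have := (h32.mul_left ((coprime_seven.mpr hT7).symm.pow_left (m := 2))).add_mul_left_left
          (-21 * s ^ 2)
        rwa [show 32 * T ^ 2 - 147 * s ^ 2 = 32 * T ^ 2 + 7 * (-21 * s ^ 2) by ring]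
      have hBs : IsCoprime (32 * T ^ 2 - 147 * s ^ 2) s := by
        have h32 : IsCoprime (32 : ℤ) s := by
          have := (coprime_two hs).pow_left (m := 5)
          norm_num at this
          exact this
        have := (h32.mul_left (hTs.pow_left (m := 2))).add_mul_left_left (-147 * s)
        rwa [show 32 * T ^ 2 - 147 * s ^ 2 = 32 * T ^ 2 + s * (-147 * s) by ring]
      have hBuv : IsCoprime (32 * T ^ 2 - 147 * s ^ 2)
          ((8 * |e| - (32 * T ^ 2 - 147 * s ^ 2)) * (8 * |e| + (32 * T ^ 2 - 147 * s ^ 2))) := by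
        rw [hprod, show (343 : ℤ) = 7 ^ 3 by norm_num]
        exact hB7.pow_right.mul_right hBs.pow_right
      have h2 : IsCoprime (2 : ℤ) (8 * |e| + (32 * T ^ 2 - 147 * s ^ 2)) := by
        apply coprime_two
        exact ((by decide : Even (8 : ℤ)).mul_right _).add_odd
          (((by decide : Even (32 : ℤ)).mul_right _).sub_odd
            ((Int.not_even_iff_odd.mp even_147).mul hs.pow))
      have := (h2.mul_left hBuv.of_mul_right_right).neg_left.add_mul_left_left 1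
      rwa [show -(2 * (32 * T ^ 2 - 147 * s ^ 2)) +
          (8 * |e| + (32 * T ^ 2 - 147 * s ^ 2)) * 1
          = 8 * |e| - (32 * T ^ 2 - 147 * s ^ 2) by ring] at this
    obtain ⟨a, b, hab, hb7, habs, hc4⟩ := split hl hr hcB hprod
    have habodd : Odd a ∧ Odd b := by
      have : Odd (a ^ 2 * b ^ 2) := by rw [habs]; exact hs.pow
      exact odd_of_sq_mul this
    rcases hc4 with ⟨h1, h2⟩ | ⟨h1, h2⟩
    · exact not_both_odd habodd.2 habodd.1
        (show Quartic b a (8 * T) from by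
          unfold Quartic; linear_combination h2 - h1 - 294 * habs)
    · exact sign_seven hb7 (T := 8 * T) (a := a) (by linear_combination h2 - h1 - 294 * habs)
  · -- `s = 2 S`
    obtain ⟨S, rfl⟩ : ∃ S, s = 2 * S := by
      have : Even (s ^ 2 * t ^ 2) := ⟨2 * m ^ 2, by rw [hstm]; ring⟩
      have hs : Even s := by simpa [parity_simps, Int.not_even_iff_odd.mpr htodd] using this
      exact hs.two_dvd
    have ht0 : t ≠ 0 := by rintro rfl; simp at htodd
    have hmS : m ^ 2 = S ^ 2 * t ^ 2 := by linarith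
    have hS0 : S ≠ 0 := by
      rintro rfl
      exact hm (by simpa using hmS)
    have hSt : IsCoprime S t := hst.of_mul_left_right
    have he : e ^ 2 = t ^ 4 - 147 * S ^ 2 * t ^ 2 + 5488 * S ^ 4 := by
      linear_combination hq - 147 * hmS
    rcases Int.even_or_odd S with ⟨k, rfl⟩ | hSodd
    · -- the descending case: `S = 2 k`
      have hprod : (|e| - (t ^ 2 - 294 * k ^ 2)) * (|e| + (t ^ 2 - 294 * k ^ 2))
          = 343 * (4 * k ^ 4) := by
        linear_combination sq_abs e + he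
      have hB : Odd (t ^ 2 - 294 * k ^ 2) := by
        simp [parity_simps, htodd, (by decide : Even (294 : ℤ))]
      have heodd : Odd |e| := by
        have : Odd (e ^ 2) := by rw [he]; simp [parity_simps, htodd]
        exact odd_abs.mpr ((Int.odd_pow' two_ne_zero).mp this)
      obtain ⟨u', hu'⟩ : ∃ u', |e| - (t ^ 2 - 294 * k ^ 2) = 2 * u' := (heodd.sub_odd hB).two_dvd
      have hv' : |e| + (t ^ 2 - 294 * k ^ 2) = 2 * (u' + (t ^ 2 - 294 * k ^ 2)) := by linarith
      rw [hu', hv'] at hprod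
      have hprod' : u' * (u' + (t ^ 2 - 294 * k ^ 2)) = 343 * k ^ 4 := by linarith
      have hk0 : k ≠ 0 := by rintro rfl; simp at hS0
      have hsum' : u' + (u' + (t ^ 2 - 294 * k ^ 2)) = |e| := by linarith
      obtain ⟨hl, hr⟩ := nonneg_of_mul_of_add (by rw [hprod']; positivity)
        (by rw [hsum']; exact abs_nonneg e)
      have hcB : IsCoprime u' (u' + (t ^ 2 - 294 * k ^ 2)) := by
        have hB7 : IsCoprime (t ^ 2 - 294 * k ^ 2) 7 := by
          have := ((coprime_seven.mpr h7t).symm.pow_left (m := 2)).add_mul_left_left (-42 * k ^ 2)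
          rwa [show t ^ 2 - 294 * k ^ 2 = t ^ 2 + 7 * (-42 * k ^ 2) by ring]
        have hBk : IsCoprime (t ^ 2 - 294 * k ^ 2) k := by
          have htk : IsCoprime t k :=
            (show IsCoprime t (2 * k) by rw [two_mul]; exact hSt.symm).of_mul_right_right
          have := (htk.pow_left (m := 2)).add_mul_left_left (-294 * k)
          rwa [show t ^ 2 - 294 * k ^ 2 = t ^ 2 + k * (-294 * k) by ring]
        have hBuv : IsCoprime (t ^ 2 - 294 * k ^ 2) (u' * (u' + (t ^ 2 - 294 * k ^ 2))) := by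
          rw [hprod', show (343 : ℤ) = 7 ^ 3 by norm_num]
          exact hB7.pow_right.mul_right hBk.pow_right
        have := hBuv.of_mul_right_left.symm.add_mul_left_right 1
        rwa [mul_one, add_comm] at this
      obtain ⟨a, b, hab, hb7, habs, hc4⟩ := split hl hr hcB hprod'
      rcases hc4 with ⟨h1, h2⟩ | ⟨h1, h2⟩
      · refine ⟨b, a, t, ?_, hab.symm, hb7, ?_, ?_⟩
        · rintro rfl
          exact hk0 (by simpa using habs.symm)
        · unfold Quartic; linear_combination h2 - h1 - 294 * habs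
        · have hbne : b ≠ 0 := fun hb => hb7 (hb ▸ dvd_zero 7)
          have h1' : a.natAbs ≤ k.natAbs := natAbs_le_of_sq habs hbne
          have h2' : k.natAbs < (k + k).natAbs := by omega
          have h3' : (k + k).natAbs ≤ m.natAbs := natAbs_le_of_sq hmS.symm ht0
          omega
      · exact (sign_seven hb7 (T := t) (a := a)
          (by linear_combination h2 - h1 - 294 * habs)).elim
    · -- `S` odd: impossible
      exfalso
      have hprod : (2 * |e| - (2 * t ^ 2 - 147 * S ^ 2)) * (2 * |e| + (2 * t ^ 2 - 147 * S ^ 2))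
          = 343 * S ^ 4 := by
        linear_combination 4 * sq_abs e + 4 * he
      obtain ⟨hl, hr⟩ := nonneg_of_mul_of_add (by rw [hprod]; positivity)
        (show (0 : ℤ) ≤ (2 * |e| - (2 * t ^ 2 - 147 * S ^ 2))
          + (2 * |e| + (2 * t ^ 2 - 147 * S ^ 2)) by have := abs_nonneg e; omega)
      have hcB : IsCoprime (2 * |e| - (2 * t ^ 2 - 147 * S ^ 2))
          (2 * |e| + (2 * t ^ 2 - 147 * S ^ 2)) := by
        have hB7 : IsCoprime (2 * t ^ 2 - 147 * S ^ 2) 7 := by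
          have h27 : IsCoprime (2 : ℤ) 7 := ⟨4, -1, by norm_num⟩
          have := (h27.mul_left ((coprime_seven.mpr h7t).symm.pow_left (m := 2))).add_mul_left_left
            (-21 * S ^ 2)
          rwa [show 2 * t ^ 2 - 147 * S ^ 2 = 2 * t ^ 2 + 7 * (-21 * S ^ 2) by ring]
        have hBS : IsCoprime (2 * t ^ 2 - 147 * S ^ 2) S := by
          have := ((coprime_two hSodd).mul_left (hSt.symm.pow_left (m := 2))).add_mul_left_left
            (-147 * S)
          rwa [show 2 * t ^ 2 - 147 * S ^ 2 = 2 * t ^ 2 + S * (-147 * S) by ring]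
        have hBuv : IsCoprime (2 * t ^ 2 - 147 * S ^ 2)
            ((2 * |e| - (2 * t ^ 2 - 147 * S ^ 2)) * (2 * |e| + (2 * t ^ 2 - 147 * S ^ 2))) := by
          rw [hprod, show (343 : ℤ) = 7 ^ 3 by norm_num]
          exact hB7.pow_right.mul_right hBS.pow_right
        have h2 : IsCoprime (2 : ℤ) (2 * |e| + (2 * t ^ 2 - 147 * S ^ 2)) := by
          apply coprime_two
          exact (even_two_mul _).add_odd
            ((even_two_mul _).sub_odd ((Int.not_even_iff_odd.mp even_147).mul hSodd.pow))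
        have := (h2.mul_left hBuv.of_mul_right_right).neg_left.add_mul_left_left 1
        rwa [show -(2 * (2 * t ^ 2 - 147 * S ^ 2)) +
            (2 * |e| + (2 * t ^ 2 - 147 * S ^ 2)) * 1
            = 2 * |e| - (2 * t ^ 2 - 147 * S ^ 2) by ring] at this
      obtain ⟨a, b, hab, hb7, habs, hc4⟩ := split hl hr hcB hprod
      have habodd : Odd a ∧ Odd b := by
        have : Odd (a ^ 2 * b ^ 2) := by rw [habs]; exact hSodd.pow
        exact odd_of_sq_mul this
      rcases hc4 with ⟨h1, h2⟩ | ⟨h1, h2⟩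
      · exact not_both_odd habodd.2 habodd.1
          (show Quartic b a (2 * t) from by
            unfold Quartic; linear_combination h2 - h1 - 294 * habs)
      · exact sign_seven hb7 (T := 2 * t) (a := a) (by linear_combination h2 - h1 - 294 * habs)

lemma quartic_trivial {e m w : ℤ} (hc : IsCoprime e m) (h7 : ¬ (7 : ℤ) ∣ e)
    (h : Quartic e m w) : m = 0 := by
  induction hn : m.natAbs using Nat.strong_induction_on generalizing e m w with
  | _ n ih =>
    by_contra hm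
    obtain ⟨e', m', w', hm', hc', h7', h', hlt⟩ := descent_step hm hc h7 h
    exact hm' (ih _ (hn ▸ hlt) hc' h7' h' rfl)

/-- The only integral solutions of Genocchi's quartic have `n = 0`. -/
theorem genocchi_quartic {W e n : ℤ}
    (h : W ^ 2 = 49 * e ^ 4 + 294 * e ^ 2 * n ^ 2 - 7 * n ^ 4) : n = 0 := by
  by_contra hn
  obtain ⟨g, e', n', hg, hcop, rfl, rfl⟩ := Int.exists_gcd_one' (m := e) (n := n)
    (Nat.pos_of_ne_zero fun h0 => hn (Int.gcd_eq_zero_iff.mp h0).2)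
  have hg0 : (g : ℤ) ≠ 0 := by exact_mod_cast hg.ne'
  have hn' : n' ≠ 0 := fun h0 => hn (by simp [h0])
  obtain ⟨W', rfl⟩ : (g : ℤ) ^ 2 ∣ W := (Int.pow_dvd_pow_iff (n := 2) (by norm_num)).mp
    ⟨49 * e' ^ 4 + 294 * e' ^ 2 * n' ^ 2 - 7 * n' ^ 4, by rw [h]; ring⟩
  have h' : W' ^ 2 = 49 * e' ^ 4 + 294 * e' ^ 2 * n' ^ 2 - 7 * n' ^ 4 := by
    have : ((g : ℤ) ^ 4) * W' ^ 2
        = (g : ℤ) ^ 4 * (49 * e' ^ 4 + 294 * e' ^ 2 * n' ^ 2 - 7 * n' ^ 4) := by
      linear_combination h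
    exact mul_left_cancel₀ (pow_ne_zero 4 hg0) this
  obtain ⟨w, rfl⟩ : (7 : ℤ) ∣ W' := prime_seven.dvd_of_dvd_pow (n := 2)
    ⟨7 * e' ^ 4 + 42 * e' ^ 2 * n' ^ 2 - n' ^ 4, by rw [h']; ring⟩
  obtain ⟨m, rfl⟩ : (7 : ℤ) ∣ n' := prime_seven.dvd_of_dvd_pow (n := 4)
    ⟨e' ^ 4 + 6 * e' ^ 2 * n' ^ 2 - w ^ 2, by linarith⟩
  have hq : Quartic e' m w := by
    unfold Quartic; linarith
  have hc : IsCoprime e' (7 * m) := Int.isCoprime_iff_gcd_eq_one.mpr hcop
  have h7 : ¬ (7 : ℤ) ∣ e' := coprime_seven.mp hc.of_mul_right_left.symm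
  exact hn' (by rw [quartic_trivial hc.of_mul_right_right h7 hq]; ring)

/-- Genocchi's identity. -/
lemma genocchi_identity (x y z : ℤ) :
    x ^ 7 + y ^ 7 + z ^ 7 = (x + y + z) ^ 7 -
      7 * ((x + y + z) * (x * y + y * z + z * x) - x * y * z) *
        (((x + y + z) ^ 2 - (x * y + y * z + z * x)) ^ 2 + (x + y + z) * (x * y * z)) := by
  ring

/-- Fermat's Last Theorem for exponent seven. -/
theorem flt_seven (x y z : ℤ) (h : x ^ 7 + y ^ 7 + z ^ 7 = 0) : x * y * z = 0 := by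
  rw [genocchi_identity] at h
  generalize hp : x + y + z = p at h
  generalize hq : x * y + y * z + z * x = q at h
  generalize hr : x * y * z = r at h
  by_cases hp0 : p = 0
  · subst hp0
    have : r * q ^ 2 = 0 := by linarith
    rcases mul_eq_zero.mp this with h0 | h0
    · exact h0
    · have hq0 : q = 0 := by simpa using h0
      subst hr
      have hx : x = 0 := by nlinarith [sq_nonneg x, sq_nonneg y, sq_nonneg z, hp, hq, hq0]
      simp [hx]
  · exfalso
    have := genocchi_quartic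
      (W := 4 * (14 * p * (p * q - r) - 7 * (p ^ 4 - p ^ 2 * q + q ^ 2)))
      (e := 2 * q - p ^ 2) (n := p ^ 2) (by linear_combination 448 * p * h)
    exact hp0 (by simpa using this)

end Fermat.Agent.S10Seven
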